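import Mathlib

/-!
# CSP-lite (integer form): definitions and the symbol calculus

`χ` is a function on `SL(2,ℤ)`, additive on `Γ₀(N)`, killing all trace 2 elements of `Γ₀(N)`,
with values in an abelian group killed by an odd prime `p`, and such that
`χ (a b; q c d) = ε χ (a q b; c d)`.  Goal (file `Main`): `χ = 0` on `Γ₁(N)`.
-/

set_option autoImplicit false

open Matrix CongruenceSubgroup
open scoped MatrixGroups

namespace Fermat.Agent.S41.CSP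

universe u

/-- the element of `SL(2,ℤ)` with given entries -/
def sl (a b c d : ℤ) (h : a * d - b * c = 1) : SL(2, ℤ) :=
  ⟨!![a, b; c, d], by rw [Matrix.det_fin_two_of]; exact h⟩

@[simp] lemma sl_00 (a b c d : ℤ) (h : a * d - b * c = 1) : (sl a b c d h) 0 0 = a := rfl
@[simp] lemma sl_01 (a b c d : ℤ) (h : a * d - b * c = 1) : (sl a b c d h) 0 1 = b := rfl
@[simp] lemma sl_10 (a b c d : ℤ) (h : a * d - b * c = 1) : (sl a b c d h) 1 0 = c := rfl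
@[simp] lemma sl_11 (a b c d : ℤ) (h : a * d - b * c = 1) : (sl a b c d h) 1 1 = d := rfl

lemma sl_ext {a b c d a' b' c' d' : ℤ} (h : a * d - b * c = 1) (h' : a' * d' - b' * c' = 1)
    (ha : a = a') (hb : b = b') (hc : c = c') (hd : d = d') : sl a b c d h = sl a' b' c' d' h' := by
  subst ha hb hc hd; rfl

lemma det_entries (g : SL(2, ℤ)) : g 0 0 * g 1 1 - g 0 1 * g 1 0 = 1 := by
  have := g.2
  rw [Matrix.det_fin_two] at this
  exact this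

lemma eq_sl (g : SL(2, ℤ)) : g = sl (g 0 0) (g 0 1) (g 1 0) (g 1 1) (det_entries g) := by
  ext i j
  fin_cases i <;> fin_cases j <;> rfl

lemma sl_mul_aux {a b c d a' b' c' d' : ℤ} (h : a * d - b * c = 1) (h' : a' * d' - b' * c' = 1) :
    (a * a' + b * c') * (c * b' + d * d') - (a * b' + b * d') * (c * a' + d * c') = 1 := by
  have : (a * a' + b * c') * (c * b' + d * d') - (a * b' + b * d') * (c * a' + d * c')
      = (a * d - b * c) * (a' * d' - b' * c') := by ring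
  rw [this, h, h', one_mul]

lemma sl_mul (a b c d a' b' c' d' : ℤ) (h : a * d - b * c = 1) (h' : a' * d' - b' * c' = 1) :
    sl a b c d h * sl a' b' c' d' h' =
      sl (a * a' + b * c') (a * b' + b * d') (c * a' + d * c') (c * b' + d * d')
        (sl_mul_aux h h') := by
  apply Subtype.ext
  show !![a, b; c, d] * !![a', b'; c', d'] = _
  rw [Matrix.mul_fin_two]
  rfl

lemma sl_inv (a b c d : ℤ) (h : a * d - b * c = 1) :
    (sl a b c d h)⁻¹ = sl d (-b) (-c) a (by linarith) := by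
  rw [inv_eq_iff_mul_eq_one, sl_mul]
  ext i j
  fin_cases i <;> fin_cases j <;> simp [sl] <;> linarith

lemma sl_one : sl 1 0 0 1 (by norm_num) = 1 := by
  ext i j
  fin_cases i <;> fin_cases j <;> simp [sl]

lemma sl_mem_Gamma0 {N : ℕ} {a b c d : ℤ} (h : a * d - b * c = 1) :
    sl a b c d h ∈ Gamma0 N ↔ (N : ℤ) ∣ c := by
  rw [Gamma0_mem, sl_10, ZMod.intCast_zmod_eq_zero_iff_dvd]

lemma mem_Gamma0_iff {N : ℕ} (g : SL(2, ℤ)) : g ∈ Gamma0 N ↔ (N : ℤ) ∣ g 1 0 := by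
  rw [Gamma0_mem, ZMod.intCast_zmod_eq_zero_iff_dvd]

lemma sl_trace (a b c d : ℤ) (h : a * d - b * c = 1) : (sl a b c d h).1.trace = a + d := by
  simp [sl, Matrix.trace_fin_two]

/-- The data of CSP-lite. -/
structure Datum (𝔸 : Type u) [AddCommGroup 𝔸] : Type u where
  N : ℕ
  q : ℕ
  p : ℕ
  hN : 0 < N
  hq : q.Prime
  hqN : ¬ q ∣ N
  hp : p.Prime
  hp2 : p ≠ 2
  tors : ∀ x : 𝔸, p • x = 0
  χ : SL(2, ℤ) → 𝔸
  map_mul : ∀ g h, g ∈ Gamma0 N → h ∈ Gamma0 N → χ (g * h) = χ g + χ h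
  par : ∀ g, g ∈ Gamma0 N → g.1.trace = 2 → χ g = 0
  ε : ℤ
  hε : ε = 1 ∨ ε = -1
  hδ : ∀ (a b c d : ℤ) (h : a * d - b * (q * c) = 1) (h' : a * d - (q * b) * c = 1),
    (N : ℤ) ∣ c → χ (sl a b (q * c) d h) = ε • χ (sl a (q * b) c d h')

namespace Datum

variable {𝔸 : Type u} [AddCommGroup 𝔸] (D : Datum 𝔸)

lemma map_one : D.χ 1 = 0 := by
  have := D.map_mul 1 1 (one_mem _) (one_mem _)
  rw [one_mul] at this
  exact (add_eq_left.mp this.symm)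

lemma map_inv (g : SL(2, ℤ)) (hg : g ∈ Gamma0 D.N) : D.χ g⁻¹ = - D.χ g := by
  have := D.map_mul g g⁻¹ hg (inv_mem hg)
  rw [mul_inv_cancel, D.map_one] at this
  exact (neg_eq_of_add_eq_zero_right this.symm).symm

lemma map_pow (g : SL(2, ℤ)) (hg : g ∈ Gamma0 D.N) (k : ℕ) : D.χ (g ^ k) = k • D.χ g := by
  induction k with
  | zero => simp [D.map_one]
  | succ k ih => rw [pow_succ, D.map_mul _ _ (pow_mem hg k) hg, ih, succ_nsmul]

lemma eps_sq : D.ε * D.ε = 1 := by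
  rcases D.hε with h | h <;> rw [h] <;> norm_num

/-- if `k` is prime to `p` then `k • x = 0 → x = 0`. -/
lemma eq_zero_of_nsmul {k : ℕ} (hk : ¬ D.p ∣ k) {x : 𝔸} (hx : k • x = 0) : x = 0 := by
  have hc : Nat.Coprime D.p k := (Nat.Prime.coprime_iff_not_dvd D.hp).2 hk
  have h1 : (1 : ℤ) = D.p * Nat.gcdA D.p k + k * Nat.gcdB D.p k := by
    have := Nat.gcd_eq_gcd_ab D.p k
    rw [hc] at this
    exact_mod_cast this
  have h2 : x = (1 : ℤ) • x := (one_smul _ _).symm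
  rw [h2, h1, add_smul, mul_comm, mul_smul, mul_comm, mul_smul, natCast_zsmul, natCast_zsmul,
    D.tors, hx, smul_zero, smul_zero, add_zero]

/-- upper unipotents -/
lemma chi_E12 (x : ℤ) : D.χ (sl 1 x 0 1 (by ring)) = 0 :=
  D.par _ ((sl_mem_Gamma0 _).2 (dvd_zero _)) (by rw [sl_trace]; norm_num)

/-- lower unipotents -/
lemma chi_E21 (y : ℤ) (hy : (D.N : ℤ) ∣ y) : D.χ (sl 1 0 y 1 (by ring)) = 0 :=
  D.par _ ((sl_mem_Gamma0 _).2 hy) (by rw [sl_trace]; norm_num)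

/-- `χ` only depends on the first column. -/
lemma chi_eq_of_col {a c b d b' d' : ℤ} (h : a * d - b * c = 1) (h' : a * d' - b' * c = 1)
    (hc : (D.N : ℤ) ∣ c) : D.χ (sl a b c d h) = D.χ (sl a b' c d' h') := by
  have e : sl a b' c d' h' = sl a b c d h * sl 1 (d * b' - b * d') 0 1 (by ring) := by
    rw [sl_mul]
    apply sl_ext
    · ring
    · linear_combination (-b') * h + b * h'
    · ring
    · linear_combination (-d') * h + d * h'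
  rw [e, D.map_mul _ _ ((sl_mem_Gamma0 _).2 hc) ((sl_mem_Gamma0 _).2 (dvd_zero _)), D.chi_E12,
    add_zero]

lemma bezout_aux {a c : ℤ} (h : IsCoprime a c) :
    a * Int.gcdA a c - (- Int.gcdB a c) * c = 1 := by
  have h1 := Int.gcd_eq_gcd_ab a c
  rw [Int.isCoprime_iff_gcd_eq_one.1 h] at h1
  push_cast at h1
  linarith

open Classical in
/-- The symbol: `s a c = χ g` for any `g ∈ Γ₀(N)` with first column `(a, c)`. -/
noncomputable def s (a c : ℤ) : 𝔸 :=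
  if h : IsCoprime a c then D.χ (sl a (- Int.gcdB a c) c (Int.gcdA a c) (bezout_aux h)) else 0

lemma isCoprime_of_det {a b c d : ℤ} (h : a * d - b * c = 1) : IsCoprime a c :=
  ⟨d, -b, by linarith⟩

lemma chi_sl (a b c d : ℤ) (h : a * d - b * c = 1) (hc : (D.N : ℤ) ∣ c) :
    D.χ (sl a b c d h) = D.s a c := by
  rw [s, dif_pos (isCoprime_of_det h)]
  exact D.chi_eq_of_col _ _ hc

lemma chi_eq_s (g : SL(2, ℤ)) (hg : g ∈ Gamma0 D.N) : D.χ g = D.s (g 0 0) (g 1 0) := by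
  conv_lhs => rw [eq_sl g]
  exact D.chi_sl _ _ _ _ _ ((mem_Gamma0_iff g).1 hg)

/-- Left multiplication: the fundamental property of the symbol. -/
lemma s_smul (α β γ δ : ℤ) (h : α * δ - β * γ = 1) (hγ : (D.N : ℤ) ∣ γ) {a c : ℤ}
    (hac : IsCoprime a c) (hc : (D.N : ℤ) ∣ c) :
    D.s (α * a + β * c) (γ * a + δ * c) = D.χ (sl α β γ δ h) + D.s a c := by
  obtain ⟨d, b, hbd⟩ := hac
  have h1 : a * d - (-b) * c = 1 := by linarith
  rw [← D.chi_sl a (-b) c d h1 hc, ← D.map_mul _ _ ((sl_mem_Gamma0 _).2 hγ) ((sl_mem_Gamma0 _).2 hc),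
    sl_mul, D.chi_sl]
  exact dvd_add (Dvd.dvd.mul_right hγ _) (Dvd.dvd.mul_left hc _)

/-- (S1) -/
lemma s_S1 {a c : ℤ} (hac : IsCoprime a c) (hc : (D.N : ℤ) ∣ c) (t : ℤ) :
    D.s a (c + D.N * t * a) = D.s a c := by
  have := D.s_smul 1 0 (D.N * t) 1 (by ring) (Dvd.intro _ rfl) hac hc
  rw [D.chi_E21 _ (Dvd.intro _ rfl), zero_add] at this
  rw [← this]
  congr 1 <;> ring

/-- (S2) -/
lemma s_S2 {a c : ℤ} (hac : IsCoprime a c) (hc : (D.N : ℤ) ∣ c) (t : ℤ) :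
    D.s (a + t * c) c = D.s a c := by
  have := D.s_smul 1 t 0 1 (by ring) (dvd_zero _) hac hc
  rw [D.chi_E12, zero_add] at this
  rw [← this]
  congr 1 <;> ring

lemma s_one (c : ℤ) (hc : (D.N : ℤ) ∣ c) : D.s 1 c = 0 := by
  rw [← D.chi_sl 1 0 c 1 (by ring) hc, D.chi_E21 c hc]

/-- `s a c` only depends on `a` modulo `c`. -/
lemma s_congr_left {a a' c : ℤ} (hac : IsCoprime a c) (hc : (D.N : ℤ) ∣ c) (h : c ∣ a' - a) :
    D.s a' c = D.s a c := by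
  obtain ⟨t, ht⟩ := h
  rw [← D.s_S2 hac hc t]
  congr 1
  linarith

/-- `s a c` only depends on `c` modulo `N a`. -/
lemma s_congr_right {a c c' : ℤ} (hac : IsCoprime a c) (hc : (D.N : ℤ) ∣ c)
    (h : (D.N : ℤ) * a ∣ c' - c) : D.s a c' = D.s a c := by
  obtain ⟨t, ht⟩ := h
  rw [← D.s_S1 hac hc t]
  congr 1
  linear_combination ht

/-- (Rq) -/
lemma s_Rq {a c : ℤ} (hac : IsCoprime a (D.q * c)) (hc : (D.N : ℤ) ∣ c) :
    D.s a (D.q * c) = D.ε • D.s a c := by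
  obtain ⟨d, b, hbd⟩ := hac
  have h1 : a * d - (-b) * (D.q * c) = 1 := by linarith
  have h2 : a * d - (D.q * (-b)) * c = 1 := by linarith
  rw [← D.chi_sl a (-b) (D.q * c) d h1 (Dvd.dvd.mul_left hc _), ← D.chi_sl a (D.q * (-b)) c d h2 hc]
  exact D.hδ a (-b) c d h1 h2 hc

lemma isCoprime_q_N : IsCoprime (D.q : ℤ) (D.N : ℤ) := by
  rw [Nat.isCoprime_iff_coprime]
  exact (Nat.Prime.coprime_iff_not_dvd D.hq).2 D.hqN

lemma eps_smul_eps_smul (x : 𝔸) : D.ε • D.ε • x = x := by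
  rw [smul_smul, D.eps_sq, one_smul]

/-- (R'q) -/
lemma s_Rq' : ∃ τ : 𝔸, ∀ x y : ℤ, IsCoprime ((D.q : ℤ) * x) y → (D.N : ℤ) ∣ y →
    D.s (D.q * x) y = D.ε • D.s x y + τ := by
  obtain ⟨d0, b0, h0⟩ := D.isCoprime_q_N
  have hw0 : (D.q : ℤ) * d0 - (-b0) * D.N = 1 := by linarith
  have hw0' : (1 : ℤ) * (D.q * d0) - (-b0) * D.N = 1 := by linarith
  refine ⟨D.χ (sl D.q (-b0) D.N d0 hw0), fun x y hxy hy => ?_⟩
  obtain ⟨d, b, hbd⟩ := hxy
  have hg : (D.q : ℤ) * x * d - (-b) * y = 1 := by linarith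
  have hg' : x * (D.q * d) - (-b) * y = 1 := by linarith
  have hNN : (D.N : ℤ) ∣ D.N := dvd_rfl
  have m1 : sl (D.q * x) (-b) y d hg ∈ Gamma0 D.N := (sl_mem_Gamma0 _).2 hy
  have m2 : sl x (-b) y (D.q * d) hg' ∈ Gamma0 D.N := (sl_mem_Gamma0 _).2 hy
  have m3 : sl D.q (-b0) D.N d0 hw0 ∈ Gamma0 D.N := (sl_mem_Gamma0 _).2 hNN
  have m4 : sl 1 (-b0) D.N (D.q * d0) hw0' ∈ Gamma0 D.N := (sl_mem_Gamma0 _).2 hNN
  have hc' : (D.N : ℤ) ∣ y * d0 - d * D.N :=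
    dvd_sub (Dvd.dvd.mul_right hy _) (Dvd.intro_left _ rfl)
  have k1 : (x * (D.q * d0) + b * D.N) * (D.q * d + y * b0)
      - (x * b0 - b) * (D.q * (y * d0 - d * D.N)) = 1 := by
    linear_combination (D.q * d * x + b * y) * hw0' + hg'
  have k2 : (x * (D.q * d0) + b * D.N) * (D.q * d + y * b0)
      - (D.q * (x * b0 - b)) * (y * d0 - d * D.N) = 1 := by
    linear_combination k1
  have key := D.hδ _ _ _ _ k1 k2 hc'
  have e1 : sl x (-b) y (D.q * d) hg' * (sl 1 (-b0) D.N (D.q * d0) hw0')⁻¹ = sl _ _ _ _ k1 := by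
    rw [sl_inv, sl_mul]
    apply sl_ext <;> ring
  have e2 : sl (D.q * x) (-b) y d hg * (sl D.q (-b0) D.N d0 hw0)⁻¹ = sl _ _ _ _ k2 := by
    rw [sl_inv, sl_mul]
    apply sl_ext <;> ring
  rw [← e1, ← e2, D.map_mul _ _ m2 (inv_mem m4), D.map_mul _ _ m1 (inv_mem m3), D.map_inv _ m4,
    D.map_inv _ m3, D.chi_sl _ _ _ _ hw0' hNN, D.s_one _ hNN, D.chi_sl _ _ _ _ hg' hy,
    D.chi_sl _ _ _ _ hg hy, neg_zero, add_zero] at key
  rw [key, D.eps_smul_eps_smul]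
  abel

lemma isCoprime_of_mul_left {u a c : ℤ} (h : IsCoprime (u * a) c) : IsCoprime a c :=
  IsCoprime.of_mul_left_right h

/-- iterating (R'q) -/
lemma s_pow_q (m : ℕ) : ∃ τ : 𝔸, ∀ a c : ℤ, IsCoprime ((D.q : ℤ) ^ m * a) c → (D.N : ℤ) ∣ c →
    D.s ((D.q : ℤ) ^ m * a) c = D.ε ^ m • D.s a c + τ := by
  induction m with
  | zero => exact ⟨0, fun a c _ _ => by simp⟩
  | succ m ih =>
    obtain ⟨τ, hτ⟩ := ih
    obtain ⟨τ', hτ'⟩ := D.s_Rq'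
    refine ⟨D.ε • τ + τ', fun a c hac hc => ?_⟩
    have e : (D.q : ℤ) ^ (m + 1) * a = D.q * ((D.q : ℤ) ^ m * a) := by ring
    rw [e] at hac ⊢
    rw [hτ' _ _ hac hc, hτ _ _ (isCoprime_of_mul_left hac) hc, smul_add, smul_smul, pow_succ,
      mul_comm (D.ε ^ m), add_assoc]

/-- **(U)**: the only place where the unit `q` is used. -/
lemma s_U {m : ℕ} (hm : Even m) (hmN : (D.N : ℤ) ∣ (D.q : ℤ) ^ m - 1) {a c : ℤ}
    (hac : IsCoprime ((D.q : ℤ) ^ m * a) c) (hc : (D.N : ℤ) ∣ c) :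
    D.s ((D.q : ℤ) ^ m * a) c = D.s a c := by
  obtain ⟨τ, hτ⟩ := D.s_pow_q m
  have hε : D.ε ^ m = 1 := by
    rcases D.hε with h | h
    · rw [h, one_pow]
    · rw [h, hm.neg_one_pow]
  have h1 : IsCoprime ((D.q : ℤ) ^ m * 1) (D.N : ℤ) := by
    rw [mul_one]; exact D.isCoprime_q_N.pow_left
  have h2 := hτ 1 D.N h1 dvd_rfl
  rw [D.s_one _ dvd_rfl, smul_zero, zero_add, mul_one,
    D.s_congr_left (a := 1) isCoprime_one_left dvd_rfl hmN, D.s_one _ dvd_rfl] at h2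
  rw [hτ a c hac hc, hε, one_smul, ← h2, add_zero]

/-! ### Interfaces for the three steps -/

/-- Step A for the number `π` with exponent `J`:
`s (a + x c/π, c) = s (a, c)` whenever `N π^(J+1) ∣ c`. -/
def StepAFor (π J : ℕ) : Prop :=
  ∀ x a c₁ : ℤ, IsCoprime a (D.N * (π : ℤ) ^ (J + 1) * c₁) →
    D.s (a + x * (D.N * (π : ℤ) ^ J * c₁)) (D.N * (π : ℤ) ^ (J + 1) * c₁)
      = D.s a (D.N * (π : ℤ) ^ (J + 1) * c₁)

lemma StepAFor.mono {π J J' : ℕ} (h : D.StepAFor π J) (hJ : J ≤ J') : D.StepAFor π J' := by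
  obtain ⟨k, rfl⟩ := Nat.exists_eq_add_of_le hJ
  intro x a c₁ hac
  have e1 : (D.N : ℤ) * (π : ℤ) ^ (J + k + 1) * c₁ = D.N * (π : ℤ) ^ (J + 1) * ((π : ℤ) ^ k * c₁) := by
    ring
  have e2 : (D.N : ℤ) * (π : ℤ) ^ (J + k) * c₁ = D.N * (π : ℤ) ^ J * ((π : ℤ) ^ k * c₁) := by
    ring
  rw [e1] at hac ⊢
  rw [e2]
  exact h x a _ hac

/-- **Step A**. -/
def StepA : Prop :=
  ∀ π : ℕ, π.Prime → π ≠ 2 → ¬ π ∣ D.N → π ≠ D.q → ∃ J, 1 ≤ J ∧ D.StepAFor π J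

/-- the pairs of auxiliary primes of Step B -/
structure GoodPair (π₁ π₂ : ℕ) : Prop where
  prime₁ : π₁.Prime
  prime₂ : π₂.Prime
  ne : π₁ ≠ π₂
  odd₁ : π₁ ≠ 2
  odd₂ : π₂ ≠ 2
  ndvd₁ : ¬ π₁ ∣ D.N
  ndvd₂ : ¬ π₂ ∣ D.N
  neq₁ : π₁ ≠ D.q
  neq₂ : π₂ ≠ D.q
  nep₁ : π₁ ≠ D.p
  nep₂ : π₂ ≠ D.p
  p₁ : ¬ D.p ∣ π₁ - 1
  p₂ : ¬ D.p ∣ π₂ - 1
  modN : (D.N : ℤ) ∣ (π₁ : ℤ) * π₂ - 1

/-- (B2) for `n` and exponent `K`: `χ (t h t⁻¹) = χ h` for `h ≡ 1 mod n^K`, `t = diag(n, 1/n)`. -/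
def B2For (n K : ℕ) : Prop :=
  ∀ (a b c d : ℤ) (h : a * d - b * ((n : ℤ) ^ 2 * c) = 1) (h' : a * d - ((n : ℤ) ^ 2 * b) * c = 1),
    (D.N : ℤ) ∣ c → sl a b ((n : ℤ) ^ 2 * c) d h ∈ Gamma (n ^ K) →
      D.χ (sl a ((n : ℤ) ^ 2 * b) c d h') = D.χ (sl a b ((n : ℤ) ^ 2 * c) d h)

/-- **Step B**. -/
def StepB : Prop :=
  ∀ π₁ π₂ : ℕ, D.GoodPair π₁ π₂ → ∀ a c : ℤ, IsCoprime a (((π₁ : ℤ) * π₂) ^ 2 * c) →
    (D.N : ℤ) ∣ c → D.s a (((π₁ : ℤ) * π₂) ^ 2 * c) = D.s a c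

end Datum

/-- (B3), pure group theory. -/
def B3 : Prop :=
  ∀ (π K : ℕ), π.Prime → ∀ h : SL(2, ℤ), h ∈ Gamma0 π → h ^ ((π - 1) * π ^ K) ∈ Gamma (π ^ K)

end Fermat.Agent.S41.CSP
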